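/-
S35lib / Tame / TwoByTwo  (helper3)

The pure linear-algebra consumer of the tame relation.  `V` free of rank 2 over a domain `R`,
`F N : End_R V` with `F N = q • (N F)` (the tame relation `ρ(φ) N ρ(φ)⁻¹ = q N` for
`N = ρ(τ) - 1`), `N ≠ 0`, `det F = q`, `q ≠ 0, 1`:

  `charpoly F = X² - (q + 1) X + q`   or   `charpoly F = X² + (q + 1) X + q`,

exactly the two alternatives of the second clause of S35.

Proof: by Cayley–Hamilton `F² = t F - q`; from `F² N = q² N F²` one gets `t • N F = (1 + q) • N`,
then multiplying by `F` once more `t² = (1 + q)²`.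
-/
import Mathlib

set_option autoImplicit false

noncomputable section

namespace Fermat.Agent.S35lib.Tame

open Polynomial

section Abstract

variable {R : Type*} [CommRing R] [IsDomain R] {E : Type*} [Ring E] [Algebra R E]
  [Module.IsTorsionFree R E]

/-- the abstract computation in an `R`-algebra `E` without `R`-torsion -/
theorem trace_sq_eq_of_tame (F N : E) (t q : R) (hq0 : q ≠ 0) (hq1 : q ≠ 1)
    (hFN : F * N = q • (N * F)) (hCH : F * F = t • F - q • (1 : E)) (hN : N ≠ 0) :
    t ^ 2 = (1 + q) ^ 2 := by
  -- `F² N = q² N F²`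
  have hA : F * F * N = (q ^ 2) • (N * (F * F)) := by
    calc F * F * N = F * (F * N) := mul_assoc _ _ _
      _ = F * (q • (N * F)) := by rw [hFN]
      _ = q • ((F * N) * F) := by rw [mul_smul_comm, mul_assoc]
      _ = q • ((q • (N * F)) * F) := by rw [hFN]
      _ = (q ^ 2) • (N * (F * F)) := by
        rw [smul_mul_assoc, smul_smul, ← sq, mul_assoc]
  -- expand with Cayley–Hamilton
  have hL : F * F * N = (t * q) • (N * F) - q • N := by
    rw [hCH, sub_mul, smul_mul_assoc, smul_mul_assoc, one_mul, hFN, smul_smul]
  have hR : N * (F * F) = t • (N * F) - q • N := by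
    rw [hCH, mul_sub, mul_smul_comm, mul_smul_comm, mul_one]
  -- `t • N F = (1 + q) • N`
  have hB : t • (N * F) = (1 + q) • N := by
    have h0 : (q * (1 - q)) • (t • (N * F) - (1 + q) • N) = 0 := by
      have h1 : (t * q) • (N * F) - q • N = (q ^ 2) • (t • (N * F) - q • N) := by
        rw [← hL, hA, hR]
      have h2 : (q * (1 - q)) • (t • (N * F) - (1 + q) • N) =
          ((t * q) • (N * F) - q • N) - (q ^ 2) • (t • (N * F) - q • N) := by
        module
      rw [h2, h1, sub_self]
    rcases smul_eq_zero.1 h0 with h | h
    · exfalso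
      rcases mul_eq_zero.1 h with h | h
      · exact hq0 h
      · exact hq1 (sub_eq_zero.1 h).symm
    · exact sub_eq_zero.1 h
  -- multiply by `F` on the right
  have hC : t • (t • (N * F) - q • N) = (1 + q) • (N * F) := by
    have := congrArg (fun X => X * F) hB
    simp only [smul_mul_assoc] at this
    rw [mul_assoc, hR] at this
    exact this
  -- conclude
  have hfin : (t ^ 2 - (1 + q) ^ 2) • N = 0 := by
    have h3 : (t ^ 2 - (1 + q) ^ 2) • N =
        t • (t • (t • (N * F) - q • N) - (1 + q) • (N * F)) -
          (t ^ 2 - 1 - q) • (t • (N * F) - (1 + q) • N) := by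
      module
    rw [h3, hC, hB, sub_self, sub_self, smul_zero, smul_zero, sub_self]
  rcases smul_eq_zero.1 hfin with h | h
  · exact sub_eq_zero.1 h
  · exact absurd h hN

end Abstract

section RankTwo

variable {R : Type*} [CommRing R] [IsDomain R] {V : Type*} [AddCommGroup V] [Module R V]
  [Module.Free R V] [Module.Finite R V]

/-- the characteristic polynomial of an endomorphism of a free module of rank 2 -/
theorem charpoly_eq_trace_det (hrank : Module.finrank R V = 2) (f : Module.End R V) :
    LinearMap.charpoly f = X ^ 2 - C (LinearMap.trace R V f) * X + C (LinearMap.det f) := by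
  classical
  let b : Module.Basis (Fin 2) R V := Module.finBasisOfFinrankEq R V hrank
  rw [← LinearMap.charpoly_toMatrix f b, Matrix.charpoly_fin_two,
    LinearMap.trace_eq_matrix_trace R b, LinearMap.det_toMatrix]

/-- **the consumer of the tame relation**: Frobenius has characteristic polynomial
`X² ∓ (q + 1) X + q`. -/
theorem charpoly_of_tame (hrank : Module.finrank R V = 2) (F N : Module.End R V) (q : R)
    (hq0 : q ≠ 0) (hq1 : q ≠ 1) (hFN : F * N = q • (N * F)) (hN : N ≠ 0)
    (hdet : LinearMap.det F = q) :
    LinearMap.charpoly F = X ^ 2 - C (q + 1) * X + C q ∨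
      LinearMap.charpoly F = X ^ 2 + C (q + 1) * X + C q := by
  have hcp := charpoly_eq_trace_det hrank F
  rw [hdet] at hcp
  -- Cayley–Hamilton
  have hCH : F * F = (LinearMap.trace R V F) • F - q • (1 : Module.End R V) := by
    have h := LinearMap.aeval_self_charpoly F
    rw [hcp] at h
    simp only [map_add, map_sub, map_mul, map_pow, aeval_X, aeval_C] at h
    rw [Algebra.algebraMap_eq_smul_one, Algebra.algebraMap_eq_smul_one, smul_mul_assoc, one_mul,
      sq] at h
    have h' : F * F = (LinearMap.trace R V F) • F - q • (1 : Module.End R V) := by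
      rw [eq_sub_iff_add_eq, ← sub_eq_zero]
      rw [← h]
      abel
    exact h'
  have ht := trace_sq_eq_of_tame F N (LinearMap.trace R V F) q hq0 hq1 hFN hCH hN
  have hfac : (LinearMap.trace R V F - (1 + q)) * (LinearMap.trace R V F + (1 + q)) = 0 := by
    have : (LinearMap.trace R V F - (1 + q)) * (LinearMap.trace R V F + (1 + q)) =
        LinearMap.trace R V F ^ 2 - (1 + q) ^ 2 := by ring
    rw [this, ht, sub_self]
  rcases mul_eq_zero.1 hfac with h | h
  · left
    rw [hcp, sub_eq_zero.1 h, add_comm 1 q]
  · right
    have h' : LinearMap.trace R V F = -(q + 1) := by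
      rw [add_comm 1 q] at h
      exact eq_neg_of_add_eq_zero_left h
    rw [hcp, h', map_neg, neg_mul, sub_neg_eq_add]

end RankTwo

end Fermat.Agent.S35lib.Tame
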